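import Mathlib
import Fermat.Agent.S22T.DeltaInt

set_option autoImplicit false

/-!
# S16, work package L1-ev (helper257): evaluation of level one forms at a zero of `E₄`

For a level one modular form `F` of weight `12 j` whose `q`-expansion has coefficients in a
subring `O ⊆ ℂ`, and a zero `z₀` of `E₄` (e.g. `ρ`), the number `F z₀ / Δ z₀ ^ j` lies in `O`.
Moreover `E₆ z₀ ^ 2 = -1728 * Δ z₀`.
-/

namespace Fermat.Agent.S16.H257

open UpperHalfPlane ModularForm EisensteinSeries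
open scoped MatrixGroups ModularForm Manifold

local notation "Δ" => ModularForm.discriminant

/-- If `P = qExpansion Δ * Q` and `P` has coefficients in `O`, so does `Q`. -/
theorem coeff_mem_of_discriminant_mul (O : Subring ℂ) {P Q : PowerSeries ℂ}
    (h : P = qExpansion 1 Δ * Q) (hP : ∀ n, PowerSeries.coeff n P ∈ O) :
    ∀ n, PowerSeries.coeff n Q ∈ O := by
  intro n
  induction n using Nat.strong_induction_on with
  | _ n ih =>
    have h1 := congrArg (PowerSeries.coeff (n + 1)) h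
    rw [PowerSeries.coeff_mul, Finset.Nat.sum_antidiagonal_eq_sum_range_succ_mk,
      Finset.sum_range_succ', Finset.sum_range_succ'] at h1
    simp only [Fermat.Agent.S22T.qExpansion_discriminant_coeff, Fermat.Agent.S22T.tau_zero,
      Int.cast_zero, zero_mul, add_zero, zero_add, Fermat.Agent.S22T.tau_one, Int.cast_one,
      one_mul, Nat.add_sub_cancel] at h1
    have h2 : PowerSeries.coeff n Q = PowerSeries.coeff (n + 1) P -
        ∑ k ∈ Finset.range n, (Fermat.Agent.S22T.tau (k + 1 + 1) : ℂ) *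
          PowerSeries.coeff (n + 1 - (k + 1 + 1)) Q := by
      rw [h1]
      ring
    rw [h2]
    refine O.sub_mem (hP _) (O.sum_mem fun k hk => O.mul_mem (intCast_mem O _) (ih _ ?_))
    have := Finset.mem_range.mp hk
    omega

/-- The `q`-expansion of `E₄` has coefficients in every subring. -/
theorem coeff_qExpansion_E4_pow_mem (O : Subring ℂ) (m n : ℕ) :
    PowerSeries.coeff n (qExpansion 1 (E₄ : ℍ → ℂ) ^ m) ∈ O := by
  rw [Fermat.Agent.S22T.qExpansion_E4, ← map_pow, PowerSeries.coeff_map]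
  exact intCast_mem O _

theorem constantCoeff_qExpansion_E4_pow (m : ℕ) :
    PowerSeries.coeff 0 (qExpansion 1 (E₄ : ℍ → ℂ) ^ m) = 1 := by
  rw [PowerSeries.coeff_zero_eq_constantCoeff_apply, map_pow,
    ← PowerSeries.coeff_zero_eq_constantCoeff_apply, E_qExpansion_coeff_zero _ ⟨2, rfl⟩, one_pow]

/-- **L1-ev**: the evaluation `F ↦ F z₀ / Δ z₀ ^ j` at a zero `z₀` of `E₄` maps level one forms
of weight `12 j` with `q`-expansion coefficients in `O` into `O`. -/
theorem ev_mem (O : Subring ℂ) (z₀ : ℍ) (hz : E₄ z₀ = 0) :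
    ∀ (j : ℕ) (k : ℤ), k = 12 * (j : ℤ) → ∀ F : ModularForm 𝒮ℒ k,
      (∀ n, PowerSeries.coeff n (qExpansion 1 F) ∈ O) → F z₀ / Δ z₀ ^ j ∈ O := by
  intro j
  induction j with
  | zero =>
    intro k hk F hF
    have hk0 : k = 0 := by simpa using hk
    subst hk0
    obtain ⟨c, hc⟩ := ModularFormClass.levelOne_weight_zero_const F
    have h0 := hF 0
    have hq : qExpansion 1 (F : ℍ → ℂ) = c • (1 : PowerSeries ℂ) := by
      have : (F : ℍ → ℂ) = c • (1 : ℍ → ℂ) := by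
        rw [hc]
        funext z
        simp
      rw [this, qExpansion_smul, qExpansion_one]
      have h1 : cuspFunction 1 (1 : ℍ → ℂ) = 1 := by
        ext q
        rcases eq_or_ne q 0 with rfl | hq
        · simpa [cuspFunction, Function.Periodic.cuspFunction] using!
            tendsto_const_nhds.limUnder_eq
        · simp [cuspFunction, Function.Periodic.cuspFunction_eq_of_nonzero 1 _ hq]
      rw [h1]
      exact analyticAt_const
    rw [hq] at h0
    simp only [PowerSeries.coeff_smul, PowerSeries.coeff_one, if_true, smul_eq_mul, mul_one]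
      at h0
    rw [hc]
    simpa using h0
  | succ j ih =>
    intro k hk F hF
    have hΓ : (1 : ℝ) ∈ (𝒮ℒ).strictPeriods := by simp
    -- the power of `E₄` of weight `k`
    have hw : ((3 * (j + 1) : ℕ) : ℤ) * 4 = k := by
      rw [hk]
      push_cast
      ring
    let E : ModularForm 𝒮ℒ k := ModularForm.mcast hw (E₄.pow (3 * (j + 1)))
    have hE : (E : ℍ → ℂ) = (E₄ : ℍ → ℂ) ^ (3 * (j + 1)) := by
      rw [ModularForm.coe_mcast, ModularForm.coe_pow]
    have hEq : qExpansion 1 (E : ℍ → ℂ) = qExpansion 1 (E₄ : ℍ → ℂ) ^ (3 * (j + 1)) := by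
      rw [ModularForm.coe_mcast]
      exact ModularForm.qExpansion_pow one_pos hΓ E₄ _
    set a₀ : ℂ := PowerSeries.coeff 0 (qExpansion 1 (F : ℍ → ℂ)) with ha₀
    have ha₀O : a₀ ∈ O := hF 0
    let F' : ModularForm 𝒮ℒ k := F - a₀ • E
    have hF'coe : (F' : ℍ → ℂ) = (F : ℍ → ℂ) - a₀ • (E : ℍ → ℂ) := rfl
    have hF'q : qExpansion 1 (F' : ℍ → ℂ) =
        qExpansion 1 (F : ℍ → ℂ) - a₀ • qExpansion 1 (E₄ : ℍ → ℂ) ^ (3 * (j + 1)) := by
      rw [hF'coe]
      have h1 : (a₀ • (E : ℍ → ℂ)) = ((a₀ • E : ModularForm 𝒮ℒ k) : ℍ → ℂ) := rfl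
      rw [h1, ModularForm.qExpansion_sub one_pos hΓ F (a₀ • E)]
      have h2 : ((a₀ • E : ModularForm 𝒮ℒ k) : ℍ → ℂ) = a₀ • (E : ℍ → ℂ) := rfl
      rw [h2, ModularForm.qExpansion_smul one_pos hΓ a₀ E, hEq]
    have hF'O : ∀ n, PowerSeries.coeff n (qExpansion 1 (F' : ℍ → ℂ)) ∈ O := by
      intro n
      rw [hF'q, map_sub, PowerSeries.coeff_smul, smul_eq_mul]
      exact O.sub_mem (hF n) (O.mul_mem ha₀O (coeff_qExpansion_E4_pow_mem O _ n))
    have hcusp : PowerSeries.coeff 0 (qExpansion 1 (F' : ℍ → ℂ)) = 0 := by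
      rw [hF'q, map_sub, PowerSeries.coeff_smul, constantCoeff_qExpansion_E4_pow, smul_eq_mul,
        mul_one, sub_self]
    have hfac := ModularForm.qExpansion_eq_qExpansion_discriminant_mul F' hcusp
    set H : ModularForm 𝒮ℒ (k - 12) := CuspForm.discriminantEquiv (F'.toCuspForm hcusp) with hH
    have hHO : ∀ n, PowerSeries.coeff n (qExpansion 1 (H : ℍ → ℂ)) ∈ O :=
      coeff_mem_of_discriminant_mul O hfac hF'O
    have hkj : k - 12 = 12 * (j : ℤ) := by
      rw [hk]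
      push_cast
      ring
    have hih := ih (k - 12) hkj H hHO
    have hval : F z₀ = Δ z₀ * H z₀ := by
      have h1 : Δ z₀ * H z₀ = (F'.toCuspForm hcusp) z₀ :=
        ModularForm.discriminant_mul_discriminantEquiv_apply _ z₀
      rw [h1, ModularForm.toCuspForm_apply]
      have h2 : F' z₀ = F z₀ - a₀ * (E z₀) := rfl
      have h3 : E z₀ = E₄ z₀ ^ (3 * (j + 1)) := by
        have := congrFun hE z₀
        simpa using this
      rw [h2, h3, hz, zero_pow (by omega), mul_zero, sub_zero]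
    have hne : Δ z₀ ≠ 0 := ModularForm.discriminant_ne_zero z₀
    have : F z₀ / Δ z₀ ^ (j + 1) = H z₀ / Δ z₀ ^ j := by
      rw [hval, pow_succ]
      field_simp
    rw [this]
    exact hih

/-- At a zero of `E₄`: `E₆ ^ 2 = -1728 Δ`. -/
theorem E6_sq_of_E4_eq_zero {z₀ : ℍ} (hz : E₄ z₀ = 0) : E₆ z₀ ^ 2 = -1728 * Δ z₀ := by
  have h := ModularForm.discriminant_eq_E₄_cube_sub_E₆_sq z₀
  rw [hz] at h
  rw [h]
  ring

/-! ### The point `ρ` is a zero of `E₄` -/

/-- `ρ = e^{2πi/3}`. -/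
noncomputable def rhoPt : ℍ := ⟨⟨-1 / 2, Real.sqrt 3 / 2⟩, by simp⟩

theorem coe_rhoPt : ((rhoPt : ℍ) : ℂ) = ⟨-1 / 2, Real.sqrt 3 / 2⟩ := rfl

theorem rhoPt_sq_add : ((rhoPt : ℍ) : ℂ) ^ 2 + (rhoPt : ℂ) + 1 = 0 := by
  rw [coe_rhoPt]
  apply Complex.ext
  · simp [pow_two]
    have h3 : Real.sqrt 3 * Real.sqrt 3 = 3 := Real.mul_self_sqrt (by norm_num)
    nlinarith
  · simp [pow_two]
    ring

theorem ST_smul_rhoPt : (ModularGroup.S * ModularGroup.T) • rhoPt = rhoPt := by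
  rw [mul_smul, UpperHalfPlane.modular_S_smul]
  ext
  show (-((ModularGroup.T • rhoPt : ℍ) : ℂ))⁻¹ = (rhoPt : ℂ)
  have hT : ((ModularGroup.T • rhoPt : ℍ) : ℂ) = (rhoPt : ℂ) + 1 := by
    have := UpperHalfPlane.modular_T_smul rhoPt
    rw [this]
    simp [add_comm]
  rw [hT]
  apply inv_eq_of_mul_eq_one_left
  linear_combination -rhoPt_sq_add

theorem denom_ST (z : ℍ) :
    denom ((ModularGroup.S * ModularGroup.T : SL(2, ℤ)) : GL (Fin 2) ℝ) z = (z : ℂ) + 1 := by
  rw [ModularGroup.denom_apply]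
  simp [ModularGroup.coe_S, ModularGroup.coe_T, Matrix.mul_apply, Fin.sum_univ_two]

/-- `E₄ ρ = 0`. -/
theorem E4_rhoPt : E₄ rhoPt = 0 := by
  have hmem : ((ModularGroup.S * ModularGroup.T : SL(2, ℤ)) : GL (Fin 2) ℝ) ∈ 𝒮ℒ := ⟨_, rfl⟩
  have h := SlashInvariantForm.slash_action_eqn'' E₄ hmem rhoPt
  have hsm : (((ModularGroup.S * ModularGroup.T : SL(2, ℤ)) : GL (Fin 2) ℝ)) • rhoPt =
      (ModularGroup.S * ModularGroup.T) • rhoPt := rfl
  rw [hsm, ST_smul_rhoPt, denom_ST] at h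
  have hr := rhoPt_sq_add
  have h4 : (((rhoPt : ℍ) : ℂ) + 1) ^ (4 : ℤ) = -(rhoPt : ℂ) - 1 := by
    norm_cast
    linear_combination ((rhoPt : ℂ) ^ 2 + 3 * (rhoPt : ℂ) + 2) * hr
  rw [h4] at h
  have h2 : ((rhoPt : ℂ) + 2) * E₄ rhoPt = 0 := by linear_combination h
  rcases mul_eq_zero.mp h2 with h0 | h0
  · exfalso
    have : ((rhoPt : ℍ) : ℂ) = -2 := by linear_combination h0
    rw [this] at hr
    norm_num at hr
  · exact h0

/-- `ev` at `ρ`, packaged: `F ρ / Δ ρ ^ j ∈ O`. -/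
theorem ev_rho_mem (O : Subring ℂ) (j : ℕ) (k : ℤ) (hk : k = 12 * (j : ℤ))
    (F : ModularForm 𝒮ℒ k) (hF : ∀ n, PowerSeries.coeff n (qExpansion 1 F) ∈ O) :
    F rhoPt / Δ rhoPt ^ j ∈ O :=
  ev_mem O rhoPt E4_rhoPt j k hk F hF

end Fermat.Agent.S16.H257
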