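import Fermat.Agent.S16.Defs
import Fermat.Agent.S16.H257.L1Ev

set_option autoImplicit false

/-!
# S16, WP L1 (helper257): skeleton-shaped `evRho_int` and `exists_rho`
-/

namespace Fermat.Agent.S16.H257

open Fermat.Agent.S16
open UpperHalfPlane ModularForm CongruenceSubgroup MatrixGroups ModularFormClass EisensteinSeries
open Fermat.Agent.S20 (MF SF)
open scoped Manifold

local notation "Δ" => ModularForm.discriminant

/-- Bundle a function-level level one form. -/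
noncomputable def levelOneOfMF {k : ℤ} {H : ℍ → ℂ} (hH : H ∈ MF (⊤ : Subgroup SL(2, ℤ)) k) :
    ModularForm 𝒮ℒ k where
  toFun := H
  slash_action_eq' A hA := by
    obtain ⟨A, rfl⟩ := hA
    exact hH.2.1 A (Subgroup.mem_top A)
  holo' := hH.1
  bdd_at_cusps' hc := by
    rw [Subgroup.IsArithmetic.isCusp_iff_isCusp_SL2Z] at hc
    rw [OnePoint.isBoundedAt_iff_forall_SL2Z hc]
    intro γ _
    exact hH.2.2 γ

@[simp] theorem coe_levelOneOfMF {k : ℤ} {H : ℍ → ℂ}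
    (hH : H ∈ MF (⊤ : Subgroup SL(2, ℤ)) k) : ⇑(levelOneOfMF hH) = H := rfl

/-- WP L1 `evRho_int`, in the exact shape of the S16 skeleton. -/
theorem evRho_int (ρ : ℍ) (hρ : (E₄ : ℍ → ℂ) ρ = 0) (j : ℕ) {H : ℍ → ℂ}
    (hH : H ∈ MF (⊤ : Subgroup SL(2, ℤ)) (12 * j)) (hint : IntAll H) :
    ∃ m : ℤ, H ρ = (m : ℂ) * (Δ : ℍ → ℂ) ρ ^ j := by
  have hmem : ∀ n, PowerSeries.coeff n (qExpansion 1 (levelOneOfMF hH : ℍ → ℂ)) ∈
      (Int.castRingHom ℂ).range := by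
    intro n
    obtain ⟨m, hm⟩ := hint n
    exact ⟨m, hm.symm⟩
  obtain ⟨m, hm⟩ := ev_mem (Int.castRingHom ℂ).range ρ hρ j (12 * j) rfl (levelOneOfMF hH) hmem
  refine ⟨m, ?_⟩
  have hne : (Δ : ℍ → ℂ) ρ ^ j ≠ 0 := pow_ne_zero _ (ModularForm.discriminant_ne_zero ρ)
  have h1 : (m : ℂ) = H ρ / (Δ : ℍ → ℂ) ρ ^ j := by
    simpa using hm
  rw [h1, div_mul_cancel₀ _ hne]

/-- WP L1 `exists_rho`, in the exact shape of the S16 skeleton. -/
theorem exists_rho : ∃ ρ : ℍ, (E₄ : ℍ → ℂ) ρ = 0 := ⟨rhoPt, E4_rhoPt⟩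

end Fermat.Agent.S16.H257
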