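import Fermat.Agent.S16.Defs
import Fermat.Agent.S16.H257.L1Skel
import Fermat.Prelude.Def_ModularForm_HeckeOperatorForms
import Fermat.Prelude.Thm_ModularFormClass_qCoeff_heckeT

set_option autoImplicit false

/-!
# S16, WP L1 (helper257): `MF_top_two`, `SF_top_fourteen`, `exists_tau` in skeleton shape
-/

namespace Fermat.Agent.S16.H257

open Fermat.Agent.S16
open UpperHalfPlane ModularForm CongruenceSubgroup MatrixGroups ModularFormClass EisensteinSeries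
open Fermat.Agent.S20 (MF SF)
open scoped Manifold

local notation "Δ" => ModularForm.discriminant

/-- Bundle a function-level level one cusp form. -/
noncomputable def levelOneCuspOfSF {k : ℤ} {H : ℍ → ℂ}
    (hH : H ∈ SF (⊤ : Subgroup SL(2, ℤ)) k) : CuspForm 𝒮ℒ k where
  toFun := H
  slash_action_eq' A hA := by
    obtain ⟨A, rfl⟩ := hA
    exact hH.2.1 A (Subgroup.mem_top A)
  holo' := hH.1
  zero_at_cusps' hc := by
    rw [Subgroup.IsArithmetic.isCusp_iff_isCusp_SL2Z] at hc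
    rw [OnePoint.isZeroAt_iff_forall_SL2Z hc]
    intro γ _
    exact hH.2.2 γ

@[simp] theorem coe_levelOneCuspOfSF {k : ℤ} {H : ℍ → ℂ}
    (hH : H ∈ SF (⊤ : Subgroup SL(2, ℤ)) k) : ⇑(levelOneCuspOfSF hH) = H := rfl

/-- WP L1 `MF_top_two`: `M₂(SL₂ℤ) = 0`. -/
theorem MF_top_two : MF (⊤ : Subgroup SL(2, ℤ)) 2 = ⊥ := by
  rw [eq_bot_iff]
  intro H hH
  rw [Submodule.mem_bot]
  have h0 : levelOneOfMF hH = 0 :=
    rank_zero_iff_forall_zero.mp ModularForm.levelOne_weight_two_rank_zero _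
  have := congrArg (fun f : ModularForm 𝒮ℒ 2 => (f : ℍ → ℂ)) h0
  simpa using this

/-- WP L1 `SF_top_fourteen`: `S₁₄(SL₂ℤ) = 0`. -/
theorem SF_top_fourteen : SF (⊤ : Subgroup SL(2, ℤ)) 14 = ⊥ := by
  rw [eq_bot_iff]
  intro H hH
  rw [Submodule.mem_bot]
  have hrank : Module.rank ℂ (CuspForm 𝒮ℒ 14) = 0 := by
    rw [(CuspForm.discriminantEquiv (k := 14)).rank_eq]
    have : (14 : ℤ) - 12 = 2 := by norm_num
    rw [this]
    exact ModularForm.levelOne_weight_two_rank_zero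
  have h0 : levelOneCuspOfSF hH = 0 := rank_zero_iff_forall_zero.mp hrank _
  have := congrArg (fun f : CuspForm 𝒮ℒ 14 => (f : ℍ → ℂ)) h0
  simpa using this

theorem gamma0_one_map_eq :
    ((Gamma0 1 : Subgroup SL(2, ℤ)) : Subgroup (GL (Fin 2) ℝ)) =
      (Matrix.SpecialLinearGroup.mapGL (n := Fin 2) (R := ℤ) ℝ).range := by
  have : Gamma0 1 = ⊤ := by
    ext g
    simp [CongruenceSubgroup.Gamma0_mem, Subsingleton.elim (_ : ZMod 1) 0]
  rw [this, MonoidHom.range_eq_map]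

/-- `Δ` is an eigenform of `T_p`. -/
theorem heckeT_discriminant (p : ℕ) (hp : p.Prime) :
    ∃ c : ℂ, heckeT 12 p (Δ : ℍ → ℂ) = c • (Δ : ℍ → ℂ) := by
  have hp1 : ¬ p ∣ 1 := fun h => hp.one_lt.ne' (Nat.dvd_one.mp h)
  let Δ₁ : CuspForm (Gamma0 1) 12 := CuspForm.mcast rfl CuspForm.discriminant gamma0_one_map_eq
  let g : CuspForm (Gamma0 1) 12 := CuspForm.heckeTLin 12 hp hp1 Δ₁
  let g' : CuspForm 𝒮ℒ 12 := CuspForm.mcast rfl g gamma0_one_map_eq.symm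
  obtain ⟨c, hc⟩ := CuspForm.exists_smul_discriminant_of_weight_eq_twelve g'
  refine ⟨c, ?_⟩
  have h1 : (g' : ℍ → ℂ) = heckeT 12 p (Δ : ℍ → ℂ) := rfl
  have h2 : ((c • CuspForm.discriminant : CuspForm 𝒮ℒ 12) : ℍ → ℂ) = (g' : ℍ → ℂ) :=
    congrArg (fun f : CuspForm 𝒮ℒ 12 => (f : ℍ → ℂ)) hc
  rw [h1] at h2
  rw [← h2]
  rfl

/-- WP L1 `exists_tau`. -/
theorem exists_tau : ∃ τ : ℕ → ℤ, (∀ n, qCoeff (Δ : ℍ → ℂ) n = (τ n : ℂ)) ∧ τ 0 = 0 ∧ τ 1 = 1 ∧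
    ∀ p : ℕ, p.Prime → τ (p ^ 2) = τ p ^ 2 - (p : ℤ) ^ 11 := by
  have hτ : ∀ n, qCoeff (Δ : ℍ → ℂ) n = (Fermat.Agent.S22T.tau n : ℂ) :=
    fun n => Fermat.Agent.S22T.qExpansion_discriminant_coeff n
  refine ⟨Fermat.Agent.S22T.tau, hτ, Fermat.Agent.S22T.tau_zero, Fermat.Agent.S22T.tau_one, ?_⟩
  intro p hp
  obtain ⟨c, hc⟩ := heckeT_discriminant p hp
  have hΓ : (1 : ℝ) ∈ (𝒮ℒ).strictPeriods := by simp
  have hq : ∀ n, qCoeff (heckeT 12 p (Δ : ℍ → ℂ)) n =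
      coeffHeckeT 12 p (qCoeff (Δ : ℍ → ℂ)) n := fun n =>
    ModularFormClass.qCoeff_heckeT CuspForm.discriminant hΓ hp.ne_zero n
  have hsm : ∀ n, qCoeff (c • (Δ : ℍ → ℂ)) n = c * qCoeff (Δ : ℍ → ℂ) n := by
    intro n
    have := ModularForm.qExpansion_smul one_pos hΓ c CuspForm.discriminant
    rw [CuspForm.coe_discriminant] at this
    simp only [qCoeff]
    rw [this, PowerSeries.coeff_smul, smul_eq_mul]
  have hp1 : ¬ p ∣ 1 := fun h => hp.one_lt.ne' (Nat.dvd_one.mp h)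
  -- n = 1
  have e1 := hq 1
  rw [hc, hsm, coeffHeckeT_of_not_dvd 12 hp1, one_mul, hτ, hτ, Fermat.Agent.S22T.tau_one] at e1
  -- n = p
  have ep := hq p
  rw [hc, hsm, coeffHeckeT_of_dvd 12 (dvd_refl p), Nat.div_self hp.pos, hτ, hτ, hτ,
    Fermat.Agent.S22T.tau_one] at ep
  have hcτ : c = (Fermat.Agent.S22T.tau p : ℂ) := by simpa using e1
  rw [hcτ] at ep
  have : ((Fermat.Agent.S22T.tau (p ^ 2) : ℤ) : ℂ) =
      ((Fermat.Agent.S22T.tau p ^ 2 - (p : ℤ) ^ 11 : ℤ) : ℂ) := by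
    push_cast
    rw [pow_two p]
    have h11 : ((p : ℂ)) ^ ((12 : ℤ) - 1) = (p : ℂ) ^ 11 := by
      norm_num
    rw [h11] at ep
    linear_combination -ep
  exact_mod_cast this

end Fermat.Agent.S16.H257
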